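import Mathlib

/-!
# Shared level-one library: the analytic `j`-function

OWNER: helper61 (only the owner edits this file).  Mathlib-only imports.

`jFun z = E₄(z)^3 / Δ(z)` on the upper half plane (so `jFun = 1728 E₄³ / (E₄³ - E₆²)`,
`jFun i = 1728`, `jFun ρ = 0`), its `SL(2, ℤ)`-invariance and holomorphy, and the two
elliptic points `ellI = i`, `ellRho = e^{2πi/3}` with their stabilisers `S`, `S * T`.
-/

set_option autoImplicit false

namespace Fermat.Agent.LevelOne

open UpperHalfPlane ModularForm EisensteinSeries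
open scoped MatrixGroups ModularForm Manifold

/-- The analytic `j`-function on the upper half plane. -/
noncomputable def jFun (z : ℍ) : ℂ := E₄ z ^ 3 / ModularForm.discriminant z

theorem jFun_def (z : ℍ) : jFun z = E₄ z ^ 3 / ModularForm.discriminant z := rfl

theorem jFun_mul_discriminant (z : ℍ) : jFun z * ModularForm.discriminant z = E₄ z ^ 3 := by
  rw [jFun, div_mul_cancel₀ _ (ModularForm.discriminant_ne_zero z)]

/-- `j - 1728 = E₆² / Δ`. -/
theorem jFun_sub_1728 (z : ℍ) : jFun z - 1728 = E₆ z ^ 2 / ModularForm.discriminant z := by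
  have h := ModularForm.discriminant_eq_E₄_cube_sub_E₆_sq z
  have hΔ := ModularForm.discriminant_ne_zero z
  rw [jFun, eq_div_iff hΔ, sub_mul, div_mul_cancel₀ _ hΔ]
  rw [h]; ring

theorem jFun_eq_zero_iff (z : ℍ) : jFun z = 0 ↔ E₄ z = 0 := by
  rw [jFun, div_eq_zero_iff]
  simp [ModularForm.discriminant_ne_zero z]

theorem jFun_eq_1728_iff (z : ℍ) : jFun z = 1728 ↔ E₆ z = 0 := by
  rw [← sub_eq_zero, jFun_sub_1728, div_eq_zero_iff]
  simp [ModularForm.discriminant_ne_zero z]

/-- Level-one modular forms transform with the automorphy factor. -/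
theorem modularForm_apply_smul (k : ℤ) (f : ModularForm 𝒮ℒ k) (γ : SL(2, ℤ)) (z : ℍ) :
    f (γ • z) = f z * denom γ z ^ k := by
  have hγ : (γ : GL (Fin 2) ℝ) ∈ 𝒮ℒ := ⟨γ, rfl⟩
  have h0 : (⇑f) ∣[k] γ = ⇑f := by
    rw [SL_slash]
    exact SlashInvariantForm.slash_action_eqn f _ hγ
  have h := congrFun h0 z
  rw [SL_slash_apply] at h
  have hd : denom γ z ≠ 0 := denom_ne_zero γ z
  rw [← h, mul_assoc, ← zpow_add₀ hd]
  simp

theorem discriminant_apply_smul (γ : SL(2, ℤ)) (z : ℍ) :
    ModularForm.discriminant (γ • z) = ModularForm.discriminant z * denom γ z ^ (12 : ℤ) := by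
  have h := modularForm_apply_smul 12 (CuspForm.toModularFormₗ CuspForm.discriminant) γ z
  exact h

/-- `SL(2, ℤ)`-invariance of `j`. -/
theorem jFun_smul (γ : SL(2, ℤ)) (z : ℍ) : jFun (γ • z) = jFun z := by
  have hd : denom γ z ≠ 0 := denom_ne_zero γ z
  have hΔ := ModularForm.discriminant_ne_zero z
  rw [jFun, jFun, modularForm_apply_smul 4 E₄ γ z, discriminant_apply_smul γ z]
  have e1 : denom γ z ^ (4 : ℤ) = denom γ z ^ (4 : ℕ) := by norm_cast
  have e2 : denom γ z ^ (12 : ℤ) = denom γ z ^ (12 : ℕ) := by norm_cast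
  rw [e1, e2]
  field_simp

/-- `j` is holomorphic on the upper half plane. -/
theorem jFun_mdifferentiable : MDiff jFun := by
  have h4 : MDiff (⇑E₄) := ModularFormClass.holo E₄
  have hΔ : MDiff (ModularForm.discriminant) := ModularFormClass.holo CuspForm.discriminant
  rw [UpperHalfPlane.mdifferentiable_iff] at h4 hΔ ⊢
  have h : DifferentiableOn ℂ
      (fun w : ℂ => (⇑E₄ ∘ ofComplex) w ^ 3 / (ModularForm.discriminant ∘ ofComplex) w)
      {w | 0 < w.im} :=
    (h4.pow 3).div hΔ (fun w _ => ModularForm.discriminant_ne_zero _)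
  exact h

/-- The elliptic point `i`. -/
noncomputable def ellI : ℍ := UpperHalfPlane.I

/-- The elliptic point `ρ = e^{2πi/3} = -1/2 + (√3/2) i`. -/
noncomputable def ellRho : ℍ :=
  ⟨⟨-1 / 2, Real.sqrt 3 / 2⟩, by
    show (0 : ℝ) < Real.sqrt 3 / 2
    positivity⟩

theorem coe_ellI : (ellI : ℂ) = Complex.I := rfl

theorem coe_ellRho : (ellRho : ℂ) = ⟨-1 / 2, Real.sqrt 3 / 2⟩ := rfl

/-- `S` fixes `i`. -/
theorem S_smul_ellI : ModularGroup.S • ellI = ellI := by
  apply UpperHalfPlane.ext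
  rw [UpperHalfPlane.modular_S_smul]
  simp [ellI]

/-- `S * T : z ↦ -1 / (z + 1)` fixes `ρ`. -/
theorem ST_smul_ellRho : (ModularGroup.S * ModularGroup.T) • ellRho = ellRho := by
  rw [mul_smul]
  apply UpperHalfPlane.ext
  rw [UpperHalfPlane.modular_S_smul]
  have hT : ((ModularGroup.T • ellRho : ℍ) : ℂ) = (ellRho : ℂ) + 1 := by
    rw [UpperHalfPlane.modular_T_smul]
    simp [add_comm]
  show (-(↑(ModularGroup.T • ellRho) : ℂ))⁻¹ = (ellRho : ℂ)
  rw [hT, coe_ellRho]
  have h3 : Real.sqrt 3 * Real.sqrt 3 = 3 := Real.mul_self_sqrt (by norm_num)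
  have hmul : (-((⟨-1 / 2, Real.sqrt 3 / 2⟩ : ℂ) + 1)) * (⟨-1 / 2, Real.sqrt 3 / 2⟩ : ℂ) = 1 := by
    apply Complex.ext
    · simp only [Complex.mul_re, Complex.neg_re, Complex.add_re, Complex.one_re, Complex.neg_im,
        Complex.add_im, Complex.one_im]
      nlinarith [h3]
    · simp only [Complex.mul_im, Complex.neg_re, Complex.add_re, Complex.one_re, Complex.neg_im,
        Complex.add_im, Complex.one_im]
      ring
  exact inv_eq_of_mul_eq_one_right hmul

end Fermat.Agent.LevelOne
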