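import Mathlib
import Fermat.Agent.LevelOne.JDef

/-!
# Shared level-one library: behaviour of the analytic `j`-function at the cusp `i∞`

OWNER: helper38 (only the owner edits this file).

* `jFun_mul_qParam_tendsto` : `q · j → 1` at `i∞` (`q = exp (2πiz)`),
* `jFun_isBigO_exp` : `j = O(exp (2π im z))` at `i∞`,
* `tendsto_norm_jFun` : `‖j‖ → ∞` at `i∞`,
* `isBoundedAtImInfty_discriminant_mul_jFun` : `Δ · j` is bounded at `i∞`.
-/

set_option autoImplicit false

namespace Fermat.Agent.LevelOne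

open UpperHalfPlane ModularForm EisensteinSeries Filter Topology
open scoped MatrixGroups ModularForm Manifold Real

local notation "𝕢" => Function.Periodic.qParam

/-- `E₄ → 1` at `i∞`. -/
theorem JCusp.tendsto_E4 : Tendsto (fun z : ℍ => E₄ z) atImInfty (𝓝 1) := by
  have han : AnalyticAt ℂ (cuspFunction 1 E₄) 0 :=
    ModularFormClass.analyticAt_cuspFunction_zero E₄ one_pos one_mem_strictPeriods_SL
  have h0 : cuspFunction 1 E₄ 0 = 1 := by
    have := E_qExpansion_coeff_zero (k := 4) (by norm_num) ⟨2, rfl⟩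
    simpa [qExpansion_coeff] using this
  have ht := han.continuousAt.tendsto.comp (qParam_tendsto_atImInfty one_pos)
  rw [h0] at ht
  refine ht.congr fun z => ?_
  exact SlashInvariantFormClass.eq_cuspFunction E₄ z one_mem_strictPeriods_SL one_ne_zero

/-- `q · j → 1` at `i∞`. -/
theorem jFun_mul_qParam_tendsto :
    Tendsto (fun z : ℍ => 𝕢 1 z * jFun z) atImInfty (𝓝 1) := by
  have hprod := tendsto_atImInfty_tprod_one_sub_eta_q_pow
  have h1 : Tendsto (fun z : ℍ => E₄ z ^ 3 / ∏' (n : ℕ), (1 - eta_q n z) ^ 24) atImInfty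
      (𝓝 (1 ^ 3 / 1)) := (JCusp.tendsto_E4.pow 3).div hprod one_ne_zero
  have h2 : (1 : ℂ) ^ 3 / 1 = 1 := by norm_num
  rw [h2] at h1
  refine h1.congr fun z => ?_
  have hq : 𝕢 1 (z : ℂ) ≠ 0 := Complex.exp_ne_zero _
  have hΔ := ModularForm.discriminant_ne_zero z
  have hΔ' := discriminant_eq_q_prod z
  have hP : (∏' (n : ℕ), (1 - eta_q n z) ^ 24) ≠ 0 := by
    intro h0
    rw [h0, mul_zero] at hΔ'
    exact hΔ hΔ'
  rw [jFun, hΔ']
  field_simp

theorem JCusp.norm_qParam (z : ℍ) : ‖𝕢 1 (z : ℂ)‖ = Real.exp (-2 * π * z.im) := by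
  simp [Function.Periodic.qParam, Complex.norm_exp]

/-- `j = O(exp (2π im z))` at `i∞`. -/
theorem jFun_isBigO_exp :
    jFun =O[atImInfty] fun z : ℍ => Real.exp (2 * π * z.im) := by
  refine Asymptotics.IsBigO.of_bound 2 ?_
  have hev := jFun_mul_qParam_tendsto.eventually
    (Metric.ball_mem_nhds 1 (by norm_num : (0 : ℝ) < 1))
  filter_upwards [hev] with z hz
  have hlt : ‖𝕢 1 (z : ℂ) * jFun z‖ < 2 := by
    have h1 : ‖𝕢 1 (z : ℂ) * jFun z - 1‖ < 1 := by rwa [Complex.dist_eq] at hz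
    have h2 := norm_sub_norm_le (𝕢 1 (z : ℂ) * jFun z) 1
    rw [norm_one] at h2
    linarith
  rw [norm_mul, JCusp.norm_qParam] at hlt
  rw [Real.norm_of_nonneg (Real.exp_pos _).le]
  have hexp : Real.exp (-2 * π * z.im) * Real.exp (2 * π * z.im) = 1 := by
    rw [← Real.exp_add]
    have : -2 * π * z.im + 2 * π * z.im = 0 := by ring
    rw [this, Real.exp_zero]
  have hpos : 0 < Real.exp (2 * π * z.im) := Real.exp_pos _
  have hpos' : 0 < Real.exp (-2 * π * z.im) := Real.exp_pos _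
  have key : ‖jFun z‖ = Real.exp (-2 * π * z.im) * ‖jFun z‖ * Real.exp (2 * π * z.im) := by
    calc ‖jFun z‖ = (Real.exp (-2 * π * z.im) * Real.exp (2 * π * z.im)) * ‖jFun z‖ := by
          rw [hexp, one_mul]
      _ = _ := by ring
  rw [key]
  exact (mul_le_mul_of_nonneg_right hlt.le hpos.le)

/-- `‖j‖ → ∞` at `i∞`. -/
theorem tendsto_norm_jFun : Tendsto (fun z : ℍ => ‖jFun z‖) atImInfty atTop := by
  have hev := jFun_mul_qParam_tendsto.eventually
    (Metric.ball_mem_nhds 1 (by norm_num : (0 : ℝ) < 1 / 2))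
  have hexp : Tendsto (fun z : ℍ => (1 / 2 : ℝ) * Real.exp (2 * π * z.im)) atImInfty atTop := by
    have h1 : Tendsto (fun z : ℍ => z.im) atImInfty atTop := tendsto_comap
    have h2 : Tendsto (fun z : ℍ => 2 * π * z.im) atImInfty atTop :=
      h1.const_mul_atTop (by positivity)
    exact (Real.tendsto_exp_atTop.comp h2).const_mul_atTop (by norm_num)
  refine tendsto_atTop_mono' atImInfty ?_ hexp
  filter_upwards [hev] with z hz
  have hgt : 1 / 2 < ‖𝕢 1 (z : ℂ) * jFun z‖ := by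
    have h1 : ‖𝕢 1 (z : ℂ) * jFun z - 1‖ < 1 / 2 := by rwa [Complex.dist_eq] at hz
    have h2 := norm_sub_norm_le 1 (𝕢 1 (z : ℂ) * jFun z)
    rw [norm_one, norm_sub_rev] at h2
    linarith
  rw [norm_mul, JCusp.norm_qParam] at hgt
  have hexp' : Real.exp (-2 * π * z.im) * Real.exp (2 * π * z.im) = 1 := by
    rw [← Real.exp_add]
    have : -2 * π * z.im + 2 * π * z.im = 0 := by ring
    rw [this, Real.exp_zero]
  have hpos : 0 < Real.exp (2 * π * z.im) := Real.exp_pos _
  have key : ‖jFun z‖ = Real.exp (-2 * π * z.im) * ‖jFun z‖ * Real.exp (2 * π * z.im) := by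
    calc ‖jFun z‖ = (Real.exp (-2 * π * z.im) * Real.exp (2 * π * z.im)) * ‖jFun z‖ := by
          rw [hexp', one_mul]
      _ = _ := by ring
  show (1 / 2 : ℝ) * Real.exp (2 * π * z.im) ≤ ‖jFun z‖
  rw [key]
  exact (mul_le_mul_of_nonneg_right hgt.le hpos.le)

/-- `Δ · j = E₄³` is bounded at `i∞`. -/
theorem isBoundedAtImInfty_discriminant_mul_jFun :
    IsBoundedAtImInfty (fun z => ModularForm.discriminant z * jFun z) := by
  have h : (fun z => ModularForm.discriminant z * jFun z) = fun z : ℍ => E₄ z ^ 3 := by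
    funext z
    rw [mul_comm, jFun_mul_discriminant]
  rw [h]
  have ht : Tendsto (fun z : ℍ => E₄ z ^ 3) atImInfty (𝓝 (1 ^ 3)) := JCusp.tendsto_E4.pow 3
  exact ht.isBigO_one ℝ

end Fermat.Agent.LevelOne
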