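import Fermat.Agent.LevelOne.JDef
import Fermat.Agent.S20.PointAnalytic

/-!
# Shared level-one library: zeros of `E₄`, `E₆` at the elliptic points and the
local orders of the `j`-function

OWNER: helper99 (only the owner edits this file).

* `E4_ellRho : E₄ ellRho = 0`, `E6_ellI : E₆ ellI = 0`
* `analyticOrderAt_jFun_generic` : `j - j(z₀)` has a simple zero at `z₀` if `j(z₀) ∉ {0, 1728}`
* `jFun_ellI`, `analyticOrderAt_jFun_ellI` : `j(i) = 1728` and `j - 1728` has order `2` at `i`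
* `jFun_ellRho`, `analyticOrderAt_jFun_ellRho` : `j(ρ) = 0` and `j` has order `3` at `ρ`
-/

set_option autoImplicit false

namespace Fermat.Agent.LevelOne

open UpperHalfPlane hiding I
open ModularForm EisensteinSeries Filter Topology Complex
open scoped MatrixGroups Real Manifold

/-- `E₆` vanishes at `i`. -/
theorem E6_ellI : E₆ ellI = 0 := by
  have h := modularForm_apply_smul 6 E₆ ModularGroup.S ellI
  rw [S_smul_ellI] at h
  have hd : denom ModularGroup.S ellI = Complex.I := by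
    rw [ModularGroup.denom_S]; rfl
  rw [hd] at h
  have hI : (Complex.I : ℂ) ^ (6 : ℤ) = -1 := by
    have : (Complex.I : ℂ) ^ (6 : ℤ) = Complex.I ^ (6 : ℕ) := by norm_cast
    rw [this]
    have h2 : (Complex.I : ℂ) ^ 2 = -1 := Complex.I_sq
    calc (Complex.I : ℂ) ^ 6 = (Complex.I ^ 2) ^ 3 := by ring
      _ = -1 := by rw [h2]; norm_num
  rw [hI] at h
  have h2 : (2 : ℂ) * E₆ ellI = 0 := by linear_combination h
  simpa using h2

/-- `E₄` vanishes at `ρ`. -/
theorem E4_ellRho : E₄ ellRho = 0 := by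
  have key : ∀ g : SL(2, ℤ), g 1 0 = 1 → g 1 1 = 1 → g • ellRho = ellRho →
      E₄ ellRho = E₄ ellRho * ((ellRho : ℂ) + 1) ^ (4 : ℤ) := by
    intro g h10 h11 hfix
    have h := modularForm_apply_smul 4 E₄ g ellRho
    rw [hfix, ModularGroup.denom_apply, h10, h11] at h
    simpa using h
  have h := key (ModularGroup.S * ModularGroup.T)
    (by rw [Matrix.SpecialLinearGroup.coe_mul]
        simp [ModularGroup.S, ModularGroup.T, Matrix.mul_apply, Fin.sum_univ_two])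
    (by rw [Matrix.SpecialLinearGroup.coe_mul]
        simp [ModularGroup.S, ModularGroup.T, Matrix.mul_apply, Fin.sum_univ_two])
    ST_smul_ellRho
  rw [coe_ellRho] at h
  have h3 : Real.sqrt 3 * Real.sqrt 3 = 3 := Real.mul_self_sqrt (by norm_num)
  have hpow : (((⟨-1 / 2, Real.sqrt 3 / 2⟩ : ℂ) + 1) ^ (4 : ℤ)) = ⟨-1 / 2, -(Real.sqrt 3 / 2)⟩ := by
    have e : (((⟨-1 / 2, Real.sqrt 3 / 2⟩ : ℂ) + 1) ^ (4 : ℤ)) =
        (((⟨-1 / 2, Real.sqrt 3 / 2⟩ : ℂ) + 1) ^ (4 : ℕ)) := by norm_cast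
    rw [e]
    have e1 : ((⟨-1 / 2, Real.sqrt 3 / 2⟩ : ℂ) + 1) = ⟨1 / 2, Real.sqrt 3 / 2⟩ := by
      apply Complex.ext
      · simp only [Complex.add_re, Complex.one_re]; norm_num
      · simp only [Complex.add_im, Complex.one_im]; norm_num
    rw [e1]
    have e2 : ((⟨1 / 2, Real.sqrt 3 / 2⟩ : ℂ)) ^ 2 = ⟨-1 / 2, Real.sqrt 3 / 2⟩ := by
      rw [pow_two]
      apply Complex.ext
      · simp only [Complex.mul_re]; nlinarith [h3]
      · simp only [Complex.mul_im]; ring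
    have e3 : ((⟨-1 / 2, Real.sqrt 3 / 2⟩ : ℂ)) ^ 2 = ⟨-1 / 2, -(Real.sqrt 3 / 2)⟩ := by
      rw [pow_two]
      apply Complex.ext
      · simp only [Complex.mul_re]; nlinarith [h3]
      · simp only [Complex.mul_im]; ring
    calc ((⟨1 / 2, Real.sqrt 3 / 2⟩ : ℂ)) ^ 4 = (((⟨1 / 2, Real.sqrt 3 / 2⟩ : ℂ)) ^ 2) ^ 2 := by ring
      _ = _ := by rw [e2, e3]
  rw [hpow] at h
  have hne : (1 : ℂ) - ⟨-1 / 2, -(Real.sqrt 3 / 2)⟩ ≠ 0 := by
    intro h0
    have := congrArg Complex.re h0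
    simp at this
    norm_num at this
  have h2 : E₄ ellRho * ((1 : ℂ) - ⟨-1 / 2, -(Real.sqrt 3 / 2)⟩) = 0 := by
    linear_combination h
  rcases mul_eq_zero.mp h2 with h4 | h4
  · exact h4
  · exact absurd h4 hne

theorem jFun_ellI : jFun ellI = 1728 := (jFun_eq_1728_iff ellI).mpr E6_ellI

theorem jFun_ellRho : jFun ellRho = 0 := (jFun_eq_zero_iff ellRho).mpr E4_ellRho

/-- `F ∘ ofComplex` is analytic at points of the upper half plane for holomorphic `F`. -/
theorem jf_analyticAt {F : ℍ → ℂ} (hF : MDiff F) (z : ℍ) :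
    AnalyticAt ℂ (F ∘ ofComplex) (z : ℂ) :=
  (UpperHalfPlane.mdifferentiable_iff.mp hF).analyticAt
    (isOpen_upperHalfPlaneSet.mem_nhds z.im_pos)

theorem jf_analyticAt_E4 (z : ℍ) : AnalyticAt ℂ (⇑E₄ ∘ ofComplex) (z : ℂ) :=
  jf_analyticAt (ModularFormClass.holo E₄) z

theorem jf_analyticAt_E6 (z : ℍ) : AnalyticAt ℂ (⇑E₆ ∘ ofComplex) (z : ℂ) :=
  jf_analyticAt (ModularFormClass.holo E₆) z

theorem jf_analyticAt_discriminant (z : ℍ) :
    AnalyticAt ℂ (ModularForm.discriminant ∘ ofComplex) (z : ℂ) :=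
  jf_analyticAt (ModularFormClass.holo CuspForm.discriminant) z

/-- If `j - c = G / Δ` on `ℍ`, then `j - c` and `G` have the same order at every point. -/
theorem jf_order_aux (c : ℂ) (G : ℍ → ℂ)
    (hGeq : ∀ z : ℍ, jFun z - c = G z / ModularForm.discriminant z) (z₀ : ℍ)
    (hGan : AnalyticAt ℂ (G ∘ ofComplex) (z₀ : ℂ)) :
    analyticOrderAt (fun w : ℂ => jFun (ofComplex w) - c) (z₀ : ℂ) =
      analyticOrderAt (G ∘ ofComplex) (z₀ : ℂ) := by
  have hΔ := jf_analyticAt_discriminant z₀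
  have hne : (ModularForm.discriminant ∘ ofComplex) (z₀ : ℂ) ≠ 0 :=
    ModularForm.discriminant_ne_zero _
  have hΔinv : AnalyticAt ℂ (fun w : ℂ => ((ModularForm.discriminant ∘ ofComplex) w)⁻¹)
      (z₀ : ℂ) := hΔ.inv hne
  have heq : (fun w : ℂ => jFun (ofComplex w) - c) =
      (G ∘ ofComplex) * (fun w : ℂ => ((ModularForm.discriminant ∘ ofComplex) w)⁻¹) := by
    funext w
    simp only [Pi.mul_apply, Function.comp_apply, hGeq, div_eq_mul_inv]
  rw [heq, analyticOrderAt_mul hGan hΔinv,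
    (hΔinv.analyticOrderAt_eq_zero).mpr (inv_ne_zero hne), add_zero]

/-- `j` has a zero of exact order `3` at `ρ`. -/
theorem analyticOrderAt_jFun_ellRho :
    analyticOrderAt (fun w : ℂ => jFun (ofComplex w)) (ellRho : ℂ) = 3 := by
  have h1 : analyticOrderAt (⇑E₄ ∘ ofComplex) (ellRho : ℂ) = 1 :=
    (jf_analyticAt_E4 ellRho).analyticOrderAt_eq_one_of_zero_deriv_ne_zero
      (by simp [E4_ellRho]) (Fermat.Agent.S20.pa_E4_simple' ellRho E4_ellRho)
  have e2 : ((fun z : ℍ => E₄ z ^ 3) ∘ ofComplex) = (⇑E₄ ∘ ofComplex) ^ 3 := rfl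
  have h2 := jf_order_aux 0 (fun z : ℍ => E₄ z ^ 3) (fun z => by rw [sub_zero]; rfl) ellRho
    (by rw [e2]; exact (jf_analyticAt_E4 ellRho).pow 3)
  have e : (fun w : ℂ => jFun (ofComplex w) - 0) = fun w : ℂ => jFun (ofComplex w) := by
    funext w; rw [sub_zero]
  rw [e] at h2
  rw [h2]
  rw [e2, analyticOrderAt_pow (jf_analyticAt_E4 ellRho), h1]
  rfl

/-- `j - 1728` has a zero of exact order `2` at `i`. -/
theorem analyticOrderAt_jFun_ellI :
    analyticOrderAt (fun w : ℂ => jFun (ofComplex w) - 1728) (ellI : ℂ) = 2 := by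
  have h1 : analyticOrderAt (⇑E₆ ∘ ofComplex) (ellI : ℂ) = 1 :=
    (jf_analyticAt_E6 ellI).analyticOrderAt_eq_one_of_zero_deriv_ne_zero
      (by simp [E6_ellI]) (Fermat.Agent.S20.pa_E6_simple' ellI E6_ellI)
  have e2 : ((fun z : ℍ => E₆ z ^ 2) ∘ ofComplex) = (⇑E₆ ∘ ofComplex) ^ 2 := rfl
  have h2 := jf_order_aux 1728 (fun z : ℍ => E₆ z ^ 2) (fun z => jFun_sub_1728 z) ellI
    (by rw [e2]; exact (jf_analyticAt_E6 ellI).pow 2)
  rw [h2]
  rw [e2, analyticOrderAt_pow (jf_analyticAt_E6 ellI), h1]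
  rfl

/-- Away from the values `0` and `1728`, `j - j(z₀)` has a simple zero at `z₀`. -/
theorem analyticOrderAt_jFun_generic (z₀ : ℍ) (h0 : jFun z₀ ≠ 0) (h1 : jFun z₀ ≠ 1728) :
    analyticOrderAt (fun w : ℂ => jFun (ofComplex w) - jFun z₀) (z₀ : ℂ) = 1 := by
  set a : ℂ := 1 - jFun z₀ / 1728 with ha
  set b : ℂ := -(jFun z₀ / 1728) with hb
  have ha0 : a ≠ 0 := by
    intro h
    apply h1
    have : jFun z₀ / 1728 = 1 := by linear_combination -h
    field_simp at this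
    exact this
  have hb0 : b ≠ 0 := by
    intro h
    apply h0
    have : jFun z₀ / 1728 = 0 := by linear_combination -h
    simpa using this
  have hGeq : ∀ z : ℍ, jFun z - jFun z₀ =
      (a * E₄ z ^ 3 - b * E₆ z ^ 2) / ModularForm.discriminant z := by
    intro z
    have hΔ := ModularForm.discriminant_ne_zero z
    have hd := ModularForm.discriminant_eq_E₄_cube_sub_E₆_sq z
    rw [eq_div_iff hΔ, sub_mul, jFun_mul_discriminant, ha, hb]
    rw [hd]
    ring
  have hzero : a * E₄ z₀ ^ 3 - b * E₆ z₀ ^ 2 = 0 := by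
    have h := hGeq z₀
    rw [sub_self] at h
    have hΔ := ModularForm.discriminant_ne_zero z₀
    rcases div_eq_zero_iff.mp h.symm with h | h
    · exact h
    · exact absurd h hΔ
  have hGan : AnalyticAt ℂ ((fun z : ℍ => a * E₄ z ^ 3 - b * E₆ z ^ 2) ∘ ofComplex)
      (z₀ : ℂ) := by
    have h4 := ((jf_analyticAt_E4 z₀).pow 3).const_smul (c := a)
    have h6 := ((jf_analyticAt_E6 z₀).pow 2).const_smul (c := b)
    have e : ((fun z : ℍ => a * E₄ z ^ 3 - b * E₆ z ^ 2) ∘ ofComplex) =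
        a • (⇑E₄ ∘ ofComplex) ^ 3 - b • (⇑E₆ ∘ ofComplex) ^ 2 := rfl
    rw [e]
    exact h4.sub h6
  rw [jf_order_aux (jFun z₀) _ hGeq z₀ hGan]
  exact hGan.analyticOrderAt_eq_one_of_zero_deriv_ne_zero
    (by simpa using hzero) (Fermat.Agent.S20.pa_generic_simple' a b ha0 hb0 z₀ hzero)

end Fermat.Agent.LevelOne
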