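import Mathlib
import Fermat.Agent.LevelOne.JDef

/-!
# Shared level-one library: surjectivity of the analytic `j`-function

OWNER: helper71 (only the owner edits this file).

`jFun_surjective : Function.Surjective jFun`.

Proof: for `c : ℂ` the level-one weight-12 form `G = E₄³ - c Δ` tends to `1` at `i∞`.  If `G` had
no zero on `ℍ`, then `1 / G` would be a nonzero modular form of weight `-12` and level one, which
does not exist.  At a zero `z` of `G` we have `jFun z = c`.
-/

set_option autoImplicit false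

namespace Fermat.Agent.LevelOne

open UpperHalfPlane ModularForm EisensteinSeries Filter SlashInvariantForm
open scoped MatrixGroups ModularForm Manifold Topology

/-- The weight 12 level one modular form `E₄³ - c·Δ`. -/
noncomputable def jsurjForm (c : ℂ) : ModularForm 𝒮ℒ 12 :=
  ModularForm.mcast (by norm_num) (E₄.mul (E₄.mul E₄))
    - c • (CuspForm.toModularFormₗ CuspForm.discriminant)

theorem jsurjForm_apply (c : ℂ) (z : ℍ) :
    jsurjForm c z = E₄ z ^ 3 - c * ModularForm.discriminant z := by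
  show E₄ z * (E₄ z * E₄ z) - c • ModularForm.discriminant z = _
  rw [smul_eq_mul]
  ring

theorem jsurj_E4_tendsto_atImInfty : Tendsto (fun z : ℍ => E₄ z) atImInfty (𝓝 1) := by
  have hh : (0 : ℝ) < 1 := one_pos
  have hΓ := one_mem_strictPeriods_SL
  have hanal := ModularFormClass.analyticAt_cuspFunction_zero E₄ hh hΓ
  have h1 : Tendsto (fun z : ℍ => E₄ z) atImInfty (𝓝 (cuspFunction 1 E₄ 0)) :=
    (hanal.continuousAt.tendsto.comp (qParam_tendsto_atImInfty hh)).congr
      (fun τ ↦ SlashInvariantFormClass.eq_cuspFunction E₄ τ hΓ hh.ne')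
  have h2 : cuspFunction 1 E₄ 0 = 1 := by
    have h3 := EisensteinSeries.E_qExpansion_coeff_zero (k := 4) (by norm_num) (by decide)
    rw [qExpansion_coeff] at h3
    simpa using h3
  rwa [h2] at h1

theorem jsurjForm_tendsto (c : ℂ) : Tendsto (fun z : ℍ => jsurjForm c z) atImInfty (𝓝 1) := by
  have hΔ : Tendsto ModularForm.discriminant atImInfty (𝓝 0) :=
    ModularForm.discriminant_isZeroAtImInfty
  have h := (jsurj_E4_tendsto_atImInfty.pow 3).sub (hΔ.const_mul c)
  simp only [one_pow, mul_zero, sub_zero] at h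
  refine h.congr (fun z => ?_)
  rw [jsurjForm_apply]

theorem jsurjInv_slash (c : ℂ) (γ : SL(2, ℤ)) :
    (fun z : ℍ => (jsurjForm c z)⁻¹) ∣[(-12 : ℤ)] γ = fun z : ℍ => (jsurjForm c z)⁻¹ := by
  have hγ : (γ : GL (Fin 2) ℝ) ∈ 𝒮ℒ := ⟨γ, rfl⟩
  have e : (fun z : ℍ => (jsurjForm c z)⁻¹) = (1 : ℍ → ℂ) / ⇑(jsurjForm c) := by
    funext z
    simp
  rw [e, show (-12 : ℤ) = 0 - 12 by norm_num, div_slash_SL2]
  simp_rw [SL_slash, slash_action_eqn _ _ hγ]
  congr 1
  rw [← SL_slash]
  exact ModularForm.is_invariant_one γ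

theorem jsurjInv_mdiff (c : ℂ) (h : ∀ z : ℍ, jsurjForm c z ≠ 0) :
    MDiff (fun z : ℍ => (jsurjForm c z)⁻¹) := by
  have e : (fun z : ℍ => (jsurjForm c z)⁻¹) =
      fun z : ℍ => (1 : ModularForm 𝒮ℒ 0) z / jsurjForm c z := by
    funext z
    simp
  rw [e]
  exact (1 : ModularForm 𝒮ℒ 0).holo'.div (jsurjForm c).holo' h

/-- If `E₄³ - c·Δ` had no zero, its inverse would be a level-one modular form of weight `-12`. -/
noncomputable def jsurjInv (c : ℂ) (h : ∀ z : ℍ, jsurjForm c z ≠ 0) : ModularForm 𝒮ℒ (-12) where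
  toFun z := (jsurjForm c z)⁻¹
  slash_action_eq' := fun _ ⟨γ, hγ⟩ ↦ hγ ▸ jsurjInv_slash c γ
  holo' := jsurjInv_mdiff c h
  bdd_at_cusps' {x} hx := by
    rw [Subgroup.IsArithmetic.isCusp_iff_isCusp_SL2Z] at hx
    rw [OnePoint.isBoundedAt_iff_forall_SL2Z hx]
    intro γ _
    rw [jsurjInv_slash c γ, IsBoundedAtImInfty, BoundedAtFilter]
    have ht : Tendsto (fun z : ℍ => (jsurjForm c z)⁻¹) atImInfty (𝓝 (1 : ℂ)⁻¹) :=
      (jsurjForm_tendsto c).inv₀ one_ne_zero
    exact ht.isBigO_one ℝ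

/-- Every value `c` is attained by `E₄³ / Δ`: the form `E₄³ - c·Δ` has a zero. -/
theorem jsurj_exists_E4_cube_eq_mul_discriminant (c : ℂ) :
    ∃ z : ℍ, E₄ z ^ 3 = c * ModularForm.discriminant z := by
  by_contra hcon
  simp only [not_exists] at hcon
  have h : ∀ z : ℍ, jsurjForm c z ≠ 0 := fun z hz => hcon z (by
    rw [jsurjForm_apply] at hz
    linear_combination hz)
  have h0 := ModularFormClass.levelOne_neg_weight_eq_zero (by norm_num : (-12 : ℤ) < 0)
    (jsurjInv c h)
  have h1 := congrFun h0 UpperHalfPlane.I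
  exact inv_ne_zero (h _) h1

/-- The analytic `j`-function `ℍ → ℂ` is surjective. -/
theorem jFun_surjective : Function.Surjective jFun := fun c => by
  obtain ⟨z, hz⟩ := jsurj_exists_E4_cube_eq_mul_discriminant c
  exact ⟨z, by
    rw [jFun, hz, mul_div_cancel_right₀ _ (ModularForm.discriminant_ne_zero z)]⟩

end Fermat.Agent.LevelOne
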