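import Mathlib
import Fermat.Agent.S20.LevelOne
import Fermat.Agent.LevelOne.JDef

/-!
# Level-one library: surjectivity of the analytic `j`-function (short route, hedge file)

OWNER: helper48.  For `c : ℂ`, the weight-12 level-one form `E₄³ - c Δ` tends to `1` at `i∞`;
if it had no zero on `ℍ`, its inverse would be a level-one modular form of weight `-12`, hence
zero — absurd.  So `E₄(z)³ = c Δ(z)` for some `z`, i.e. `jFun z = c`.
-/

set_option autoImplicit false

namespace Fermat.Agent.LevelOne

open UpperHalfPlane ModularForm EisensteinSeries Filter Topology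
open scoped MatrixGroups ModularForm Manifold

/-- For every `c`, the level-one form `E₄³ - c Δ` has a zero on the upper half plane. -/
theorem exists_E4_cube_eq_mul_discriminant (c : ℂ) :
    ∃ z : ℍ, E₄ z ^ 3 = c * ModularForm.discriminant z := by
  by_contra h
  push Not at h
  set r : ℍ → ℂ := (E₄ : ℍ → ℂ) ^ 3 - c • (ModularForm.discriminant : ℍ → ℂ) with hr_def
  have hr : r ∈ Fermat.Agent.S20.LF 12 := by
    have h1 : (E₄ : ℍ → ℂ) ^ 3 ∈ Fermat.Agent.S20.LF 12 := by
      have := Fermat.Agent.S20.lo_pow_mem Fermat.Agent.S20.lo_E4_mem 3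
      simpa using this
    exact Submodule.sub_mem _ h1 (Submodule.smul_mem _ c Fermat.Agent.S20.lo_disc_mem)
  have hne : ∀ z, r z ≠ 0 := by
    intro z
    simp only [hr_def, Pi.sub_apply, Pi.pow_apply, Pi.smul_apply, smul_eq_mul]
    exact sub_ne_zero.mpr (h z)
  have ht : Tendsto r atImInfty (𝓝 ((1 : ℂ) ^ 3 - c • (0 : ℂ))) :=
    (Fermat.Agent.S20.lo_E4_tendsto.pow 3).sub
      (Fermat.Agent.S20.lo_disc_tendsto.const_smul c)
  have hinv := Fermat.Agent.S20.lo_inv_mem hr hne ht (by simp)
  rw [Fermat.Agent.S20.lo_neg_weight (by norm_num)] at hinv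
  have h0 := congrFun ((Submodule.mem_bot ℂ).mp hinv) UpperHalfPlane.I
  exact inv_ne_zero (hne _) h0

/-- The analytic `j`-function is surjective. -/
theorem jFun_surjective_B : Function.Surjective jFun := by
  intro c
  obtain ⟨z, hz⟩ := exists_E4_cube_eq_mul_discriminant c
  refine ⟨z, ?_⟩
  rw [jFun, hz, mul_div_assoc, div_self (ModularForm.discriminant_ne_zero z), mul_one]

end Fermat.Agent.LevelOne
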