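import Mathlib
import Fermat.Agent.LevelOne.JDef

/-!
# Shared level-one library: invariant holomorphic functions are polynomials in `j`

OWNER: helper15 (only the owner edits this file).

`exists_polynomial_of_invariant`: if `f : ℍ → ℂ` is holomorphic, `SL(2, ℤ)`-invariant and
`Δ ^ m * f` is bounded at `i∞`, then `f = p ∘ jFun` for a polynomial `p` of degree at most `m`.
-/

set_option autoImplicit false

namespace Fermat.Agent.LevelOne

open UpperHalfPlane ModularForm EisensteinSeries CongruenceSubgroup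
open scoped MatrixGroups ModularForm Manifold

namespace PolyInJ

/-- Core induction: a level-one modular form of weight `12 m` is `Δ ^ m` times a polynomial of
degree at most `m` in `jFun`. -/
theorem core (m : ℕ) : ∀ (k : ℤ) (_ : k = 12 * (m : ℤ)) (g : ModularForm 𝒮ℒ k),
    ∃ p : Polynomial ℂ, p.natDegree ≤ m ∧
      ∀ z : ℍ, g z = ModularForm.discriminant z ^ m * p.eval (jFun z) := by
  induction m with
  | zero =>
    intro k hk g
    have hk0 : k = 0 := by simpa using hk
    subst hk0
    obtain ⟨c, hc⟩ := ModularFormClass.levelOne_weight_zero_const g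
    refine ⟨Polynomial.C c, by simp, fun z => ?_⟩
    simp [hc]
  | succ m ih =>
    intro k hk g
    -- the Eisenstein power of weight `k`
    have hw : ((3 * (m + 1) : ℕ) : ℤ) * 4 = k := by rw [hk]; push_cast; ring
    set P : ModularForm 𝒮ℒ k := ModularForm.mcast hw (E₄.pow (3 * (m + 1))) with hP
    have hPz : ∀ z : ℍ, P z = E₄ z ^ (3 * (m + 1)) := by
      intro z
      rw [hP, ModularForm.mcast_apply, ModularForm.coe_pow]
      rfl
    have hP0 : (qExpansion 1 P).coeff 0 = 1 := by
      rw [hP, ModularForm.qExpansion_mcast,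
        ModularForm.qExpansion_pow one_pos one_mem_strictPeriods_SL]
      rw [PowerSeries.coeff_zero_eq_constantCoeff, map_pow,
        ← PowerSeries.coeff_zero_eq_constantCoeff, E_qExpansion_coeff_zero _ ⟨2, rfl⟩, one_pow]
    set a : ℂ := (qExpansion 1 g).coeff 0 with ha
    set g' : ModularForm 𝒮ℒ k := g - a • P with hg'
    have hcusp : (qExpansion 1 g').coeff 0 = 0 := by
      rw [hg', FunLike.coe_sub, ModularForm.qExpansion_sub one_pos one_mem_strictPeriods_SL,
        FunLike.coe_smul, ModularForm.qExpansion_smul one_pos one_mem_strictPeriods_SL, map_sub,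
        PowerSeries.coeff_smul, hP0, smul_eq_mul, mul_one, sub_self]
    set h : ModularForm 𝒮ℒ (k - 12) := CuspForm.discriminantEquiv (toCuspForm g' hcusp) with hh
    have hhz : ∀ z : ℍ, ModularForm.discriminant z * h z = g z - a * E₄ z ^ (3 * (m + 1)) := by
      intro z
      rw [hh, ModularForm.discriminant_mul_discriminantEquiv_apply]
      show g' z = _
      rw [hg']
      simp [hPz]
    obtain ⟨p, hpdeg, hp⟩ := ih (k - 12) (by rw [hk]; push_cast; ring) h
    refine ⟨Polynomial.C a * Polynomial.X ^ (m + 1) + p, ?_, fun z => ?_⟩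
    · refine (Polynomial.natDegree_add_le _ _).trans (max_le ?_ (hpdeg.trans (Nat.le_succ m)))
      exact (Polynomial.natDegree_C_mul_le _ _).trans (Polynomial.natDegree_X_pow_le _)
    · have hΔ : ModularForm.discriminant z ≠ 0 := discriminant_ne_zero z
      have h1 := hhz z
      rw [hp z] at h1
      have h2 : g z = a * E₄ z ^ (3 * (m + 1)) + ModularForm.discriminant z *
          (ModularForm.discriminant z ^ m * p.eval (jFun z)) := by
        rw [h1]; ring
      rw [h2]
      simp only [Polynomial.eval_add, Polynomial.eval_mul, Polynomial.eval_C, Polynomial.eval_pow,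
        Polynomial.eval_X]
      rw [pow_mul, ← jFun_mul_discriminant z]
      ring

theorem slash_eq {f : ℍ → ℂ} (hinv : ∀ (γ : SL(2, ℤ)) (z : ℍ), f (γ • z) = f z) (m : ℕ)
    (γ : SL(2, ℤ)) :
    (fun z => ModularForm.discriminant z ^ m * f z) ∣[12 * (m : ℤ)] γ =
      fun z => ModularForm.discriminant z ^ m * f z := by
  ext z
  rw [SL_slash_apply, discriminant_apply_smul, hinv]
  have hd : denom γ z ≠ 0 := denom_ne_zero γ z
  have e : (denom γ z ^ (12 : ℤ)) ^ m * denom γ z ^ (-(12 * (m : ℤ))) = 1 := by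
    rw [← zpow_natCast, ← zpow_mul, ← zpow_add₀ hd]
    simp
  calc (ModularForm.discriminant z * denom γ z ^ (12 : ℤ)) ^ m * f z
        * denom γ z ^ (-(12 * (m : ℤ)))
      = ModularForm.discriminant z ^ m * f z *
          ((denom γ z ^ (12 : ℤ)) ^ m * denom γ z ^ (-(12 * (m : ℤ)))) := by ring
    _ = ModularForm.discriminant z ^ m * f z := by rw [e, mul_one]

/-- The function `Δ ^ m * f` as a level-one modular form of weight `12 m`. -/
noncomputable def mkForm {f : ℍ → ℂ} (hf : MDiff f)
    (hinv : ∀ (γ : SL(2, ℤ)) (z : ℍ), f (γ • z) = f z) (m : ℕ)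
    (hbdd : IsBoundedAtImInfty (fun z => ModularForm.discriminant z ^ m * f z)) :
    ModularForm 𝒮ℒ (12 * (m : ℤ)) where
  toFun z := ModularForm.discriminant z ^ m * f z
  slash_action_eq' := fun _ ⟨γ, hγ⟩ ↦ hγ ▸ slash_eq hinv m γ
  holo' := ((ModularFormClass.holo CuspForm.discriminant).pow m).mul hf
  bdd_at_cusps' {c} hc := by
    rw [Subgroup.IsArithmetic.isCusp_iff_isCusp_SL2Z] at hc
    rw [OnePoint.isBoundedAt_iff_forall_SL2Z hc]
    intro γ _
    rw [slash_eq hinv m γ]
    exact hbdd

theorem mkForm_apply {f : ℍ → ℂ} (hf : MDiff f)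
    (hinv : ∀ (γ : SL(2, ℤ)) (z : ℍ), f (γ • z) = f z) (m : ℕ)
    (hbdd : IsBoundedAtImInfty (fun z => ModularForm.discriminant z ^ m * f z)) (z : ℍ) :
    mkForm hf hinv m hbdd z = ModularForm.discriminant z ^ m * f z := rfl

end PolyInJ

/-- A holomorphic `SL(2, ℤ)`-invariant function on the upper half plane with at most a pole of
order `m` at `i∞` (i.e. `Δ ^ m * f` is bounded at `i∞`) is a polynomial of degree at most `m`
in the `j`-function. -/
theorem exists_polynomial_of_invariant {f : ℍ → ℂ} (hf : MDiff f)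
    (hinv : ∀ (γ : SL(2, ℤ)) (z : ℍ), f (γ • z) = f z) (m : ℕ)
    (hbdd : IsBoundedAtImInfty (fun z => ModularForm.discriminant z ^ m * f z)) :
    ∃ p : Polynomial ℂ, p.natDegree ≤ m ∧ ∀ z : ℍ, f z = p.eval (jFun z) := by
  obtain ⟨p, hpdeg, hp⟩ := PolyInJ.core m (12 * (m : ℤ)) rfl (PolyInJ.mkForm hf hinv m hbdd)
  refine ⟨p, hpdeg, fun z => ?_⟩
  have h := hp z
  rw [PolyInJ.mkForm_apply] at h
  exact mul_left_cancel₀ (pow_ne_zero m (discriminant_ne_zero z)) h

end Fermat.Agent.LevelOne
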